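/-
S52 library, block Irr3 (helper4): **the local criterion for irreducibility of the mod-3
representation.**

`W` a semistable integral Weierstrass model with `Δ ≠ 0`, `r ≡ 1 mod 3` a prime of NON-SPLIT
multiplicative reduction (`r ∣ Δ`, `-c₄c₆` a non-square modulo `r`).  Then `W[3]` is irreducible.

Route (no local analysis at `3`): a Galois-stable line is `{0, ±Q}`; the stabiliser `H` of `Q` is an
open normal subgroup of index at most `2` containing every inertia group at `q ≠ 3`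
(`Mod5.inertia_pow_smul_eq_self`: `σ ^ 3` fixes `W[3]`); a quadratic character unramified outside `3`
is trivial on the Frobenius elements at `r ≡ 1 mod 3` (input `QuadCharThree`, helper5's
`S52lib/QuadChar/Three.lean`), so such a Frobenius element `φ` fixes `Q`; but `φ` negates a point `P`
of order `3` (`NonSplit.exists_order_three_frob_neg`, helper9), so `det φ = -1` on `W[3]`, while
`det φ = r = 1` modulo `3` (`Mod5.det_levelMat`, helper6).
-/
import Mathlib
import Fermat.Statements.S52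
import Fermat.Agent.Helper5.FrobExists
import Fermat.Agent.S13lib.Assembly
import Fermat.Agent.S13lib.PlaceOpen
import Fermat.Agent.S52lib.Mod5.ConjFixed
import Fermat.Agent.S52lib.Mod5.Inertia
import Fermat.Agent.S52lib.NonSplit.Frob

set_option autoImplicit false
set_option linter.unusedSectionVars false
set_option linter.style.haveILetI false

noncomputable section

namespace Fermat.Agent.S52lib.Irr3

open WeierstrassCurve WeierstrassCurve.Affine WeierstrassCurve.Affine.Point
open Fermat.Agent.S58lib.Tate Fermat.Agent.S29lib.S30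

/-- **Input (helper5, `S52lib/QuadChar/Three.lean`)**: a character of `G_ℚ` with open kernel and at
most two values which is unramified outside `3` is trivial on every Frobenius element at a prime
`r ≡ 1 mod 3`. -/
def QuadCharThree : Prop :=
  ∀ (G : Type) [Group G], (∀ a b : G, a ≠ 1 → b ≠ 1 → a = b) → ∀ (chi : GQ →* G),
    IsOpen (chi.ker : Set GQ) →
    (∀ q : ℕ, q.Prime → q ≠ 3 → ∀ A : ValuationSubring Qb, A.LiesOverPrime q →
      ∀ s ∈ A.inertiaSubgroupIn ℚ, chi s = 1) →
    ∀ (r : ℕ), r.Prime → r % 3 = 1 → ∀ (A : ValuationSubring Qb), A.LiesOverPrime r →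
      ∀ φ : GQ, A.IsFrobeniusAt φ r → chi φ = 1

section linalg

variable (E : WeierstrassCurve ℚ) (p : ℕ) [hp : Fact p.Prime] (hΔ : E.Δ ≠ 0)

/-- a point of exact order `p^k` negated by `σ` forces `det (levelMat + 1) = 0`. -/
theorem det_levelMat_add_one (k : ℕ) (σ : GQ) (P : Pts E) (hord : addOrderOf P = p ^ k)
    (hneg : σ • P = -P) : (levelMat E p hΔ k σ + 1).det = 0 := by
  haveI : NeZero (p ^ k) := ⟨pow_ne_zero _ hp.out.ne_zero⟩
  have hP : P ∈ tors (Pts E) p k := by
    rw [mem_tors, ← hord]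
    exact addOrderOf_nsmul_eq_zero P
  set x : tors (Pts E) p k := ⟨P, hP⟩ with hx
  set v := levelEquiv E p hΔ k x with hv
  set G := levelMat E p hΔ k σ with hG
  have h1 : (G + 1).mulVec v = 0 := by
    rw [Matrix.add_mulVec, Matrix.one_mulVec, hG, hv, levelMat_mulVec]
    have : actHom E p k σ x = -x := by
      apply Subtype.ext
      rw [actHom_coe]
      exact hneg
    rw [this, map_neg, neg_add_cancel]
  set d := (G + 1).det with hd
  have h2 : d • v = 0 := by
    have := congrArg (fun w => (Matrix.adjugate (G + 1)).mulVec w) h1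
    simp only [Matrix.mulVec_mulVec, Matrix.adjugate_mul, Matrix.mulVec_zero,
      Matrix.smul_mulVec, Matrix.one_mulVec] at this
    exact this
  have h3 : levelEquiv E p hΔ k (d.val • x) = 0 := by
    rw [map_nsmul, ← hv, ← Nat.cast_smul_eq_nsmul (ZMod (p ^ k)), ZMod.natCast_zmod_val]
    exact h2
  have h4 : d.val • x = 0 :=
    (levelEquiv E p hΔ k).injective (h3.trans (_root_.map_zero _).symm)
  have h5 : d.val • P = 0 := by
    have := congrArg (fun y : tors (Pts E) p k => (y : Pts E)) h4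
    simpa using this
  have h6 : p ^ k ∣ d.val := by
    have := addOrderOf_dvd_of_nsmul_eq_zero h5
    rwa [hord] at this
  rw [← ZMod.natCast_zmod_val d]
  exact (ZMod.natCast_eq_zero_iff _ _).mpr h6

/-- a `2 × 2` matrix with `det (M - 1) = 0 = det (M + 1)` has `2 * det M = -2`. -/
lemma two_mul_det_of_det_sub_add {R : Type*} [CommRing R] (M : Matrix (Fin 2) (Fin 2) R)
    (h1 : (M - 1).det = 0) (h2 : (M + 1).det = 0) : 2 * M.det = -2 := by
  rw [Matrix.det_fin_two] at h1 h2 ⊢
  simp only [Matrix.sub_apply, Matrix.add_apply, Matrix.one_apply_eq, Matrix.one_apply_ne,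
    ne_eq, Fin.zero_eq_one_iff, Fin.one_eq_zero_iff, OfNat.ofNat_ne_one, not_false_eq_true,
    sub_zero, add_zero] at h1 h2
  linear_combination h1 + h2

/-- **`σ` fixing a point of order `p` and negating another one has determinant `-1` modulo `p`.** -/
theorem det_levelMat_of_fix_neg (σ : GQ) (Q P : Pts E) (hQ : addOrderOf Q = p)
    (hσQ : σ • Q = Q) (hP : addOrderOf P = p) (hσP : σ • P = -P) :
    2 * (levelMat E p hΔ 1 σ).det = -2 := by
  apply two_mul_det_of_det_sub_add
  · exact det_levelMat_sub_one E p hΔ 1 σ Q (by rw [hQ, pow_one]) hσQ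
  · exact det_levelMat_add_one E p hΔ 1 σ P (by rw [hP, pow_one]) hσP

end linalg

section line

variable (W : WeierstrassCurve ℤ) (hΔ : W.Δ ≠ 0)

local notation "V3" => Submodule.torsionBy ℤ (Pts (WQ' W)) ((3 : ℕ) : ℤ)

include hΔ in
/-- `W[3]` has nine elements (prelude form). -/
lemma card_torsionBy_three : Nat.card V3 = 3 ^ 2 := by
  have := Fermat.Agent.S41lib.NE.card_torsionBy_eq_sq ((WQ' W)⁄Qb)
    (baseChange_Δ_ne_zero (WQ' W) (WQ'_Δ_ne_zero hΔ)) 3 (by norm_num)
  exact this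

include hΔ in
/-- **a reducible `W[3]` contains a point `Q` of order `3` with `σ Q = ± Q` for every `σ`.** -/
theorem exists_pm_point_of_reducible (hred : ¬ W.ModRepIsIrreducible 3) :
    ∃ Q : Pts (WQ' W), addOrderOf Q = 3 ∧ ∀ σ : GQ, σ • Q = Q ∨ σ • Q = -Q := by
  have hcard := card_torsionBy_three W hΔ
  haveI hfin : Finite V3 := Nat.finite_of_card_ne_zero (by rw [hcard]; norm_num)
  have hnt : Nontrivial V3 := by
    rw [← Finite.one_lt_card_iff_nontrivial, hcard]
    norm_num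
  -- a stable proper nonzero submodule
  have hN : ∃ N : Submodule (ZMod 3) V3, IsGaloisStable ℚ N ∧ N ≠ ⊥ ∧ N ≠ ⊤ := by
    by_contra hcon
    apply hred
    refine ⟨hnt, fun N hNst => ?_⟩
    by_contra h2
    push Not at h2
    exact hcon ⟨N, hNst, h2.1, h2.2⟩
  obtain ⟨N, hNst, hbot, htop⟩ := hN
  obtain ⟨-, hcN⟩ := Fermat.Agent.S13lib.card_eq_of_ne_bot_ne_top (p := 3) hcard.le N hbot htop
  -- a nonzero element of `N`
  obtain ⟨x, hxN, hx0⟩ : ∃ x ∈ N, x ≠ 0 := by
    by_contra hcon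
    push Not at hcon
    exact hbot ((Submodule.eq_bot_iff N).mpr hcon)
  have hx3 : (3 : ℕ) • (x : Pts (WQ' W)) = 0 := by
    have := x.2
    rw [Submodule.mem_torsionBy_iff] at this
    rw [← natCast_zsmul]
    exact this
  have hxne : (x : Pts (WQ' W)) ≠ 0 := fun h => hx0 (Subtype.ext h)
  refine ⟨x, addOrderOf_eq_prime hx3 hxne, fun σ => ?_⟩
  obtain ⟨c, hc⟩ := Fermat.Agent.S13lib.asm_exists_smul_eq N hcN hxN hx0 (hNst σ x hxN)
  have hc' : σ • (x : Pts (WQ' W)) = ((c • x : V3) : Pts (WQ' W)) := by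
    rw [← hc]; rfl
  have hσx0 : σ • (x : Pts (WQ' W)) ≠ 0 := by
    intro h
    apply hxne
    rw [← inv_smul_smul σ (x : Pts (WQ' W)), h]
    exact smul_zero (A := Pts (WQ' W)) σ⁻¹
  -- the three cases for `c`
  have hcases : ∀ c : ZMod 3, c = 0 ∨ c = 1 ∨ c = 2 := by decide
  rcases hcases c with rfl | rfl | rfl
  · exfalso
    apply hσx0
    rw [hc', zero_smul]; rfl
  · left
    rw [hc', one_smul]
  · right
    rw [hc']
    have h2 : ((2 : ZMod 3) • x : V3) = (2 : ℕ) • x := by
      rw [← Nat.cast_smul_eq_nsmul (ZMod 3)]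
      norm_num
    rw [h2]
    have h3 : (((2 : ℕ) • x : V3) : Pts (WQ' W)) = (2 : ℕ) • (x : Pts (WQ' W)) := rfl
    rw [h3]
    have h4 : (2 : ℕ) • (x : Pts (WQ' W)) + (x : Pts (WQ' W)) = 0 := by
      rw [← succ_nsmul]; exact hx3
    exact eq_neg_of_add_eq_zero_left h4

end line

section main

variable (W : WeierstrassCurve ℤ) (hΔ : W.Δ ≠ 0)

/-- the stabiliser of a point with `σ Q = ± Q` for all `σ` is normal. -/
lemma stabilizer_normal_of_pm (Q : Pts (WQ' W)) (hpm : ∀ σ : GQ, σ • Q = Q ∨ σ • Q = -Q) :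
    (MulAction.stabilizer GQ Q).Normal := by
  refine ⟨fun σ hσ g => ?_⟩
  rw [MulAction.mem_stabilizer_iff] at hσ ⊢
  have hg : g⁻¹ • Q = Q ∨ g⁻¹ • Q = -Q := hpm g⁻¹
  rw [mul_smul, mul_smul]
  rcases hg with h | h
  · have h' : Q = g • Q := inv_smul_eq_iff.mp h
    rw [h, hσ, ← h']
  · have h' : Q = g • -Q := inv_smul_eq_iff.mp h
    rw [h, smul_neg, hσ, ← h']

/-- two elements outside the stabiliser differ by an element of the stabiliser. -/
lemma inv_mul_mem_stabilizer_of_pm (Q : Pts (WQ' W))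
    (hpm : ∀ σ : GQ, σ • Q = Q ∨ σ • Q = -Q) {a b : GQ}
    (ha : a ∉ MulAction.stabilizer GQ Q) (hb : b ∉ MulAction.stabilizer GQ Q) :
    a⁻¹ * b ∈ MulAction.stabilizer GQ Q := by
  rw [MulAction.mem_stabilizer_iff] at ha hb ⊢
  have ha' : a • Q = -Q := (hpm a).resolve_left ha
  have hb' : b • Q = -Q := (hpm b).resolve_left hb
  rw [mul_smul, hb', ← ha', inv_smul_smul]

include hΔ in
/-- **the local criterion**: a semistable model with a prime `r ≡ 1 mod 3` of non-split
multiplicative reduction has irreducible mod-`3` representation. -/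
theorem modRepIsIrreducible_three_of_nonsplit (hQC : QuadCharThree) (hss : W.IsSemistableModel)
    {r : ℕ} (hr : r.Prime) (hr3 : r % 3 = 1) (hrΔ : (r : ℤ) ∣ W.Δ)
    (hns : ¬ IsSquare (((-(W.c₄ * W.c₆) : ℤ)) : ZMod r)) : W.ModRepIsIrreducible 3 := by
  by_contra hred
  obtain ⟨Q, hQ3, hpm⟩ := exists_pm_point_of_reducible W hΔ hred
  have hQ0 : Q ≠ 0 := by
    intro h
    rw [h, addOrderOf_zero] at hQ3
    norm_num at hQ3
  have h3Q : (3 : ℕ) • Q = 0 := by rw [← hQ3]; exact addOrderOf_nsmul_eq_zero Q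
  set H : Subgroup GQ := MulAction.stabilizer GQ Q with hH
  haveI hHn : H.Normal := stabilizer_normal_of_pm W Q hpm
  have hHopen : IsOpen (H : Set GQ) :=
    Fermat.Agent.S13lib.isOpen_stabilizer_point (WQ' W : Affine ℚ) Q
  -- the character `G_ℚ → G_ℚ / H`
  set chi : GQ →* GQ ⧸ H := QuotientGroup.mk' H with hchi
  have hker : chi.ker = H := QuotientGroup.ker_mk' H
  have hchi1 : ∀ σ : GQ, chi σ = 1 ↔ σ • Q = Q := by
    intro σ
    rw [← MonoidHom.mem_ker, hker, hH, MulAction.mem_stabilizer_iff]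
  have h2 : ∀ a b : GQ ⧸ H, a ≠ 1 → b ≠ 1 → a = b := by
    intro a b ha hb
    obtain ⟨a, rfl⟩ := QuotientGroup.mk_surjective a
    obtain ⟨b, rfl⟩ := QuotientGroup.mk_surjective b
    have ha' : a ∉ H := fun h => ha ((QuotientGroup.eq_one_iff a).mpr h)
    have hb' : b ∉ H := fun h => hb ((QuotientGroup.eq_one_iff b).mpr h)
    exact QuotientGroup.eq.mpr (inv_mul_mem_stabilizer_of_pm W Q hpm ha' hb')
  -- unramified outside `3`
  have hunr : ∀ q : ℕ, q.Prime → q ≠ 3 → ∀ A : ValuationSubring Qb, A.LiesOverPrime q →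
      ∀ s ∈ A.inertiaSubgroupIn ℚ, chi s = 1 := by
    intro q hq hq3 A hA s hs
    rw [hchi1]
    have h1 := Fermat.Agent.S52lib.Mod5.inertia_pow_smul_eq_self W hΔ 3 hss (by norm_num) hq hq3
      hA hs Q h3Q
    rcases hpm s with h | h
    · exact h
    · exfalso
      have h3 : (s ^ 3) • Q = -Q := by
        rw [pow_three s, mul_smul, mul_smul]
        simp only [h, smul_neg, neg_neg]
      rw [h1] at h3
      -- `Q = -Q` and `3 Q = 0` give `Q = 0`
      apply hQ0
      have h4 : (2 : ℕ) • Q = 0 := by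
        rw [two_nsmul]
        nth_rewrite 1 [h3]
        exact neg_add_cancel Q
      have h5 : (3 : ℕ) • Q = (2 : ℕ) • Q + Q := succ_nsmul Q 2
      rw [h3Q, h4, zero_add] at h5
      exact h5.symm
  -- a Frobenius element at `r`
  obtain ⟨A, φ, hA, hφ⟩ := Fermat.Agent.Helper5.exists_isFrobeniusAt r hr
  have hφQ : φ • Q = Q :=
    (hchi1 φ).mp (hQC (GQ ⧸ H) h2 chi (by rw [hker]; exact hHopen) hunr r hr hr3 A hA φ hφ)
  -- the point negated by `φ`
  have hc₄ : ¬ (r : ℤ) ∣ W.c₄ := hss r hr hrΔ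
  obtain ⟨P, hP3, hPneg⟩ := Fermat.Agent.S52lib.NonSplit.exists_order_three_frob_neg W
    (L := Qb) (A := A) hr hr3 hΔ hrΔ hc₄ hns hA
  have hφP : φ • P = -P := hPneg φ hφ
  -- determinants
  have hdet1 := det_levelMat_of_fix_neg (WQ' W) 3 (WQ'_Δ_ne_zero hΔ) φ Q P hQ3 hφQ hP3 hφP
  have hr3' : r ≠ 3 := by
    intro h
    rw [h] at hr3
    norm_num at hr3
  have hdet2 : (levelMat (WQ' W) 3 (WQ'_Δ_ne_zero hΔ) 1 φ).det = ((r : ℕ) : ZMod (3 ^ 1)) := by
    rw [Fermat.Agent.S52lib.Mod5.det_levelMat W hΔ 3 1 φ]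
    exact toZModPow_chiZp_of_isFrobeniusAt (p := 3) hr hr3' hA hφ 1
  rw [hdet2] at hdet1
  have hr1 : ((r : ℕ) : ZMod (3 ^ 1)) = 1 := by
    have h31 : (3 : ℕ) ^ 1 = 3 := by norm_num
    have : ((r : ℕ) : ZMod (3 ^ 1)) = ((1 : ℕ) : ZMod (3 ^ 1)) := by
      rw [ZMod.natCast_eq_natCast_iff, h31]
      exact hr3
    rw [this, Nat.cast_one]
  rw [hr1] at hdet1
  -- `2 = -2` in `ZMod 3` is absurd
  have : (4 : ZMod (3 ^ 1)) = 0 := by linear_combination hdet1
  revert this
  decide

end main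

end Fermat.Agent.S52lib.Irr3
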